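/-
Fermat/Agent/MAZ/Formal5/Divisible.lean  (helper5)

Programme MAZ (S15), brick T1B-U, input (FORMAL), **abstract algebra half** (Mathlib only):

  *a group with a separated, complete filtration whose graded pieces are killed by `p`
   is uniquely `r`-divisible for every `r` prime to `p`.*

Two forms, matching the two vocabularies in the tree.

* ADDITIVE / FILTRATION form (vocabulary of `MAZ/K3Abs42`): `F : ℕ → AddSubgroup A` decreasing,
  `p • F n ≤ F (n+1)`, separated (`hsep`), complete (`hcompl`: every Cauchy sequence of `F 0` has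
  a limit in `F 0`).  Then on `J1 := F 0`:
  `eq_zero_of_nsmul_eq_zero`, `eq_of_nsmul_eq`, `exists_nsmul_eq`, `exists_pow_nsmul_eq`, and
  `hformal_of_filtration` = the hypothesis `hformal` of `K3Abs42.exists_division_point` VERBATIM.

* MULTIPLICATIVE / TOWER form (vocabulary of `T1B/Toric50/Tower`): a tower `pJ n : J (n+1) →* J n`
  of commutative groups with `J 0 = 1` and `ker (pJ n)` killed by `p`:
  `Tower.pow_pow_eq_one` (`J n` is killed by `p ^ n`), `Tower.pow_bijective` (`y ↦ y ^ r` is bijective on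
  `J n`), and for `A` with coordinates `u n : A →* J n`: `Tower.pow_injective_of_sep` (`u_inj` only),
  `Tower.pow_surjective_of_complete` (`u_compat`, `u_inj`, `u_complete`), `Tower.smul_eq_of_pow_eq`.
-/
import Mathlib

set_option autoImplicit false
set_option linter.unusedSectionVars false

namespace Fermat.Agent.MAZ.Formal5

/-! ### Additive / filtration form -/

section Additive

variable {A : Type*} [AddCommGroup A]

/-- Bezout step: if `x ∈ F n`, `p • F n ≤ F (n+1)` and `r • x ∈ F (n+1)` with `r` prime to `p`, then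
`x ∈ F (n+1)`. -/
theorem mem_succ_of_nsmul_mem {F : ℕ → AddSubgroup A} {p r : ℕ} (hpr : Nat.Coprime r p)
    (hp : ∀ n, ∀ x ∈ F n, p • x ∈ F (n + 1)) {n : ℕ} {x : A} (hx : x ∈ F n)
    (hrx : r • x ∈ F (n + 1)) : x ∈ F (n + 1) := by
  obtain ⟨a, b, hab⟩ := Nat.isCoprime_iff_coprime.2 hpr
  have e : x = a • (r • x) + b • (p • x) := by
    rw [← natCast_zsmul x r, ← natCast_zsmul x p, smul_smul, smul_smul, ← add_smul, hab, one_smul]
  rw [e]
  exact (F (n + 1)).add_mem ((F (n + 1)).zsmul_mem hrx a) ((F (n + 1)).zsmul_mem (hp n x hx) b)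

/-- `F 0` has no `r`-torsion. -/
theorem eq_zero_of_nsmul_eq_zero (F : ℕ → AddSubgroup A) (p r : ℕ) (hpr : Nat.Coprime r p)
    (hp : ∀ n, ∀ x ∈ F n, p • x ∈ F (n + 1))
    (hsep : ∀ x : A, (∀ n, x ∈ F n) → x = 0) {x : A} (hx0 : x ∈ F 0) (hx : r • x = 0) : x = 0 := by
  apply hsep
  intro n
  induction n with
  | zero => exact hx0
  | succ n ih => exact mem_succ_of_nsmul_mem hpr hp ih (by rw [hx]; exact zero_mem _)

/-- Multiplication by `r` is injective on `F 0`. -/
theorem eq_of_nsmul_eq (F : ℕ → AddSubgroup A) (p r : ℕ) (hpr : Nat.Coprime r p)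
    (hp : ∀ n, ∀ x ∈ F n, p • x ∈ F (n + 1))
    (hsep : ∀ x : A, (∀ n, x ∈ F n) → x = 0) {x y : A} (hx0 : x ∈ F 0) (hy0 : y ∈ F 0)
    (hxy : r • x = r • y) : x = y := by
  have h : r • (x - y) = 0 := by rw [smul_sub]; exact sub_eq_zero.2 hxy
  exact sub_eq_zero.1
    (eq_zero_of_nsmul_eq_zero F p r hpr hp hsep ((F 0).sub_mem hx0 hy0) h)

/-- Multiplication by `r` is surjective on `F 0` (completeness). -/
theorem exists_nsmul_eq (F : ℕ → AddSubgroup A) (p r : ℕ) (hpr : Nat.Coprime r p)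
    (hanti : ∀ n, F (n + 1) ≤ F n)
    (hp : ∀ n, ∀ x ∈ F n, p • x ∈ F (n + 1))
    (hsep : ∀ x : A, (∀ n, x ∈ F n) → x = 0)
    (hcompl : ∀ s : ℕ → A, (∀ n, s n ∈ F 0) → (∀ n, s (n + 1) - s n ∈ F n) →
      ∃ z ∈ F 0, ∀ n, z - s n ∈ F n)
    {y : A} (hy : y ∈ F 0) : ∃ z ∈ F 0, r • z = y := by
  obtain ⟨a, b, hab⟩ := Nat.isCoprime_iff_coprime.2 hpr
  have hle0 : ∀ n, F n ≤ F 0 := fun n => by
    induction n with
    | zero => exact le_rfl
    | succ n ih => exact (hanti n).trans ih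
  -- successive approximations
  let s : ℕ → A := fun n => Nat.rec (0 : A) (fun _ t => t + a • (y - r • t)) n
  have hs0 : s 0 = 0 := rfl
  have hss : ∀ n, s (n + 1) = s n + a • (y - r • s n) := fun _ => rfl
  have hd : ∀ n, y - r • s n ∈ F n := by
    intro n
    induction n with
    | zero => rw [hs0, smul_zero, sub_zero]; exact hy
    | succ n ih =>
      have e : y - r • s (n + 1) = b • (p • (y - r • s n)) := by
        have e1 : y - r • s n = a • (r • (y - r • s n)) + b • (p • (y - r • s n)) := by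
          rw [← natCast_zsmul (y - r • s n) r, ← natCast_zsmul (y - r • s n) p, smul_smul,
            smul_smul, ← add_smul, hab, one_smul]
        rw [hss, smul_add, smul_comm r a]
        have e2 : y - (r • s n + a • r • (y - r • s n)) =
            (y - r • s n) - a • (r • (y - r • s n)) := by abel
        rw [e2]
        nth_rewrite 1 [e1]
        abel
      rw [e]
      exact (F (n + 1)).zsmul_mem (hp n _ ih) b
  have hstep : ∀ n, s (n + 1) - s n ∈ F n := fun n => by
    rw [hss, add_sub_cancel_left]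
    exact (F n).zsmul_mem (hd n) a
  have hs_mem : ∀ n, s n ∈ F 0 := by
    intro n
    induction n with
    | zero => rw [hs0]; exact zero_mem _
    | succ n ih =>
      have : s (n + 1) = s n + (s (n + 1) - s n) := by abel
      rw [this]
      exact (F 0).add_mem ih (hle0 n (hstep n))
  obtain ⟨z, hz0, hz⟩ := hcompl s hs_mem hstep
  refine ⟨z, hz0, ?_⟩
  have h0 : y - r • z = 0 := by
    apply hsep
    intro n
    have e : y - r • z = (y - r • s n) - r • (z - s n) := by rw [smul_sub]; abel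
    rw [e]
    exact (F n).sub_mem (hd n) ((F n).nsmul_mem (hz n) r)
  exact (sub_eq_zero.1 h0).symm

/-- Multiplication by `r ^ k` is surjective on `F 0`. -/
theorem exists_pow_nsmul_eq (F : ℕ → AddSubgroup A) (p r : ℕ) (hpr : Nat.Coprime r p)
    (hanti : ∀ n, F (n + 1) ≤ F n)
    (hp : ∀ n, ∀ x ∈ F n, p • x ∈ F (n + 1))
    (hsep : ∀ x : A, (∀ n, x ∈ F n) → x = 0)
    (hcompl : ∀ s : ℕ → A, (∀ n, s n ∈ F 0) → (∀ n, s (n + 1) - s n ∈ F n) →
      ∃ z ∈ F 0, ∀ n, z - s n ∈ F n)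
    (k : ℕ) {y : A} (hy : y ∈ F 0) : ∃ z ∈ F 0, r ^ k • z = y := by
  induction k generalizing y with
  | zero => exact ⟨y, hy, by rw [pow_zero, one_smul]⟩
  | succ k ih =>
    obtain ⟨z, hz0, hz⟩ := exists_nsmul_eq F p r hpr hanti hp hsep hcompl hy
    obtain ⟨z', hz'0, hz'⟩ := ih hz0
    exact ⟨z', hz'0, by rw [pow_succ', mul_smul, hz', hz]⟩

/-- A root of an invariant element is invariant (uniqueness of division). -/
theorem smul_eq_of_nsmul_eq {I : Type*} [Monoid I] [DistribMulAction I A]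
    (F : ℕ → AddSubgroup A) (p r : ℕ) (hpr : Nat.Coprime r p)
    (hp : ∀ n, ∀ x ∈ F n, p • x ∈ F (n + 1))
    (hsep : ∀ x : A, (∀ n, x ∈ F n) → x = 0)
    (hstab : ∀ s : I, ∀ x ∈ F 0, s • x ∈ F 0)
    {x z : A} (hz0 : z ∈ F 0) (hz : r • z = x) (s : I) (hx : s • x = x) : s • z = z := by
  refine eq_of_nsmul_eq F p r hpr hp hsep (hstab s z hz0) hz0 ?_
  rw [← smul_comm, hz, hx]

/-- **(FORMAL)**: the hypothesis `hformal` of `K3Abs42.exists_division_point`, verbatim, for
`J1 := F 0`. -/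
theorem hformal_of_filtration {I : Type*} [Monoid I] [DistribMulAction I A]
    (F : ℕ → AddSubgroup A) (p r : ℕ) (hpr : Nat.Coprime r p)
    (hanti : ∀ n, F (n + 1) ≤ F n)
    (hp : ∀ n, ∀ x ∈ F n, p • x ∈ F (n + 1))
    (hsep : ∀ x : A, (∀ n, x ∈ F n) → x = 0)
    (hcompl : ∀ s : ℕ → A, (∀ n, s n ∈ F 0) → (∀ n, s (n + 1) - s n ∈ F n) →
      ∃ z ∈ F 0, ∀ n, z - s n ∈ F n)
    (hstab : ∀ s : I, ∀ x ∈ F 0, s • x ∈ F 0) :
    ∀ x ∈ F 0, (∀ s : I, s • x = x) → ∃ x' ∈ F 0, (∀ s : I, s • x' = x') ∧ r • x' = x := by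
  intro x hx hxI
  obtain ⟨z, hz0, hz⟩ := exists_nsmul_eq F p r hpr hanti hp hsep hcompl hx
  exact ⟨z, hz0, fun s => smul_eq_of_nsmul_eq F p r hpr hp hsep hstab hz0 hz s (hxI s), hz⟩

end Additive

/-! ### Multiplicative / tower form -/

namespace Tower

variable {J : ℕ → Type*} [∀ n, CommGroup (J n)] (pJ : ∀ n, J (n + 1) →* J n)

/-- `J n` is killed by `p ^ n`. -/
theorem pow_pow_eq_one (p : ℕ) (base_J : ∀ y : J 0, y = 1)
    (hker : ∀ n (y : J (n + 1)), pJ n y = 1 → y ^ p = 1) :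
    ∀ n (y : J n), y ^ (p ^ n) = 1 := by
  intro n
  induction n with
  | zero => intro y; rw [base_J y, one_pow]
  | succ n ih =>
    intro y
    have h1 : pJ n (y ^ p ^ n) = 1 := by rw [map_pow, ih]
    have h2 := hker n _ h1
    rw [pow_succ, pow_mul]
    exact h2

/-- In a commutative group killed by `m`, `y ↦ y ^ r` is bijective for `r` prime to `m`. -/
theorem pow_bijective_of_pow_eq_one {G : Type*} [CommGroup G] {m r : ℕ} (hrm : Nat.Coprime r m)
    (hm : ∀ y : G, y ^ m = 1) : Function.Bijective (fun y : G => y ^ r) := by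
  obtain ⟨a, b, hab⟩ := Nat.isCoprime_iff_coprime.2 hrm
  have key : ∀ y : G, (y ^ r) ^ a = y := by
    intro y
    have h1 : y ^ (a * (r : ℤ) + b * (m : ℤ)) = y := by rw [hab, zpow_one]
    rw [zpow_add, mul_comm a, mul_comm b, zpow_mul, zpow_mul, zpow_natCast, zpow_natCast, hm,
      one_zpow, mul_one] at h1
    exact h1
  constructor
  · intro y y' h
    have h' : y ^ r = y' ^ r := h
    rw [← key y, h', key y']
  · intro w
    refine ⟨w ^ a, ?_⟩
    show (w ^ a) ^ r = w
    rw [← zpow_natCast, ← zpow_mul, mul_comm, zpow_mul, zpow_natCast]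
    exact key w

/-- `y ↦ y ^ r` is bijective on every `J n`. -/
theorem pow_bijective (p r : ℕ) (hpr : Nat.Coprime r p) (base_J : ∀ y : J 0, y = 1)
    (hker : ∀ n (y : J (n + 1)), pJ n y = 1 → y ^ p = 1) (n : ℕ) :
    Function.Bijective (fun y : J n => y ^ r) :=
  pow_bijective_of_pow_eq_one (Nat.Coprime.pow_right n hpr) (pow_pow_eq_one pJ p base_J hker n)

section Limit

variable {A : Type*} [CommGroup A] (u : ∀ n, A →* J n)

/-- Separated ⇒ no `r`-torsion. -/
theorem eq_one_of_pow_eq_one (p r : ℕ) (hpr : Nat.Coprime r p) (base_J : ∀ y : J 0, y = 1)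
    (hker : ∀ n (y : J (n + 1)), pJ n y = 1 → y ^ p = 1)
    (u_inj : ∀ y : A, (∀ n, u n y = 1) → y = 1) {y : A} (hy : y ^ r = 1) : y = 1 := by
  apply u_inj
  intro n
  apply (pow_bijective pJ p r hpr base_J hker n).1
  show (u n y) ^ r = 1 ^ r
  rw [← map_pow, hy, map_one, one_pow]

/-- Separated ⇒ `y ↦ y ^ r` is injective on `A`. -/
theorem pow_injective_of_sep (p r : ℕ) (hpr : Nat.Coprime r p) (base_J : ∀ y : J 0, y = 1)
    (hker : ∀ n (y : J (n + 1)), pJ n y = 1 → y ^ p = 1)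
    (u_inj : ∀ y : A, (∀ n, u n y = 1) → y = 1) : Function.Injective (fun y : A => y ^ r) := by
  intro y y' h
  have h' : y ^ r = y' ^ r := h
  have h1 : (y * y'⁻¹) ^ r = 1 := by rw [mul_pow, inv_pow, h', mul_inv_cancel]
  exact mul_inv_eq_one.1 (eq_one_of_pow_eq_one pJ u p r hpr base_J hker u_inj h1)

/-- Separated and complete ⇒ `y ↦ y ^ r` is surjective on `A`. -/
theorem pow_surjective_of_complete (p r : ℕ) (hpr : Nat.Coprime r p) (base_J : ∀ y : J 0, y = 1)
    (hker : ∀ n (y : J (n + 1)), pJ n y = 1 → y ^ p = 1)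
    (u_compat : ∀ n (y : A), pJ n (u (n + 1) y) = u n y)
    (u_inj : ∀ y : A, (∀ n, u n y = 1) → y = 1)
    (u_complete : ∀ z : ∀ n, J n, (∀ n, pJ n (z (n + 1)) = z n) → ∃ y : A, ∀ n, u n y = z n) :
    Function.Surjective (fun y : A => y ^ r) := by
  intro x
  have hbij := pow_bijective pJ p r hpr base_J hker
  have hex : ∀ n, ∃ z : J n, z ^ r = u n x := fun n => (hbij n).2 (u n x)
  choose z hz using hex
  have hcompat : ∀ n, pJ n (z (n + 1)) = z n := fun n => by
    apply (hbij n).1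
    show (pJ n (z (n + 1))) ^ r = (z n) ^ r
    rw [← map_pow, hz, hz, u_compat]
  obtain ⟨y, hy⟩ := u_complete z hcompat
  refine ⟨y, ?_⟩
  show y ^ r = x
  have h1 : (y ^ r * x⁻¹) = 1 := by
    apply u_inj
    intro n
    rw [map_mul, map_inv, map_pow, hy, hz, mul_inv_cancel]
  exact mul_inv_eq_one.1 h1

/-- Separated and complete ⇒ `y ↦ y ^ r` is bijective on `A`. -/
theorem pow_bijective_of_complete (p r : ℕ) (hpr : Nat.Coprime r p) (base_J : ∀ y : J 0, y = 1)
    (hker : ∀ n (y : J (n + 1)), pJ n y = 1 → y ^ p = 1)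
    (u_compat : ∀ n (y : A), pJ n (u (n + 1) y) = u n y)
    (u_inj : ∀ y : A, (∀ n, u n y = 1) → y = 1)
    (u_complete : ∀ z : ∀ n, J n, (∀ n, pJ n (z (n + 1)) = z n) → ∃ y : A, ∀ n, u n y = z n) :
    Function.Bijective (fun y : A => y ^ r) :=
  ⟨pow_injective_of_sep pJ u p r hpr base_J hker u_inj,
    pow_surjective_of_complete pJ u p r hpr base_J hker u_compat u_inj u_complete⟩

/-- A root of an invariant element is invariant. -/
theorem smul_eq_of_pow_eq {G : Type*} [Monoid G] [MulDistribMulAction G A]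
    (p r : ℕ) (hpr : Nat.Coprime r p) (base_J : ∀ y : J 0, y = 1)
    (hker : ∀ n (y : J (n + 1)), pJ n y = 1 → y ^ p = 1)
    (u_inj : ∀ y : A, (∀ n, u n y = 1) → y = 1)
    {x z : A} (hz : z ^ r = x) (s : G) (hx : s • x = x) : s • z = z := by
  apply pow_injective_of_sep pJ u p r hpr base_J hker u_inj
  show (s • z) ^ r = z ^ r
  rw [← smul_pow', hz, hx]

end Limit

end Tower

end Fermat.Agent.MAZ.Formal5
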